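import Fermat.Agent.LT.WeilInf.Prod
import Fermat.Agent.LT.BesselK

/-!
# The torus integral of the theta kernel is a Bessel function
-/

set_option autoImplicit false

noncomputable section

open MeasureTheory Complex
open scoped Real ComplexConjugate

namespace Fermat.Agent.LT.WeilInf

theorem ker_exp_shift (z : ℂ) (y : ℝ) {x x' : ℂ} (hx : x ≠ 0) (hx' : x' ≠ 0) (s : ℝ) :
    ker z y (Real.exp (s + Real.log (‖x'‖ / ‖x‖))) x x' =
      y * E (2 * (z * x * x').re) 0 * (bkr 0 (4 * π * y * ‖x‖ * ‖x'‖) s : ℝ) := by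
  have hx1 : 0 < ‖x‖ := norm_pos_iff.2 hx
  have hx2 : 0 < ‖x'‖ := norm_pos_iff.2 hx'
  have h1 : y * (Real.exp (s + Real.log (‖x'‖ / ‖x‖)) * ‖x‖ ^ 2 +
      ‖x'‖ ^ 2 / Real.exp (s + Real.log (‖x'‖ / ‖x‖))) = 2 * y * ‖x‖ * ‖x'‖ * Real.cosh s := by
    rw [Real.exp_add, Real.exp_log (by positivity), Real.cosh_eq, Real.exp_neg]
    have := Real.exp_pos s
    field_simp
  have h2 : E (2 * (z * x * x').re) (2 * y * ‖x‖ * ‖x'‖ * Real.cosh s) =
      E (2 * (z * x * x').re) 0 * E 0 (2 * y * ‖x‖ * ‖x'‖ * Real.cosh s) := by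
    rw [E_mul]
    congr 1 <;> ring
  rw [ker, h1, h2, ← mul_assoc (y : ℂ)]
  congr 1
  unfold E bkr
  rw [ofReal_exp]
  congr 1
  push_cast
  ring

theorem integrable_ker_exp {y : ℝ} (hy : 0 < y) (z : ℂ) {x x' : ℂ} (hx : x ≠ 0) (hx' : x' ≠ 0) :
    Integrable fun s : ℝ => ker z y (Real.exp s) x x' := by
  have hx1 : 0 < ‖x‖ := norm_pos_iff.2 hx
  have hx2 : 0 < ‖x'‖ := norm_pos_iff.2 hx'
  have h := ((integrable_bkr 0 (y := 4 * π * y * ‖x‖ * ‖x'‖) (by positivity)).ofReal (𝕜 := ℂ)).const_mul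
    (y * E (2 * (z * x * x').re) 0)
  have h2 := h.comp_sub_right (Real.log (‖x'‖ / ‖x‖))
  refine h2.congr (ae_of_all _ fun s => ?_)
  have h3 := ker_exp_shift z y hx hx' (s - Real.log (‖x'‖ / ‖x‖))
  rw [sub_add_cancel] at h3
  exact h3.symm

/-- **(W4)** one place -/
theorem integral_ker_exp (y : ℝ) (z : ℂ) {x x' : ℂ} (hx : x ≠ 0) (hx' : x' ≠ 0) :
    ∫ s : ℝ, ker z y (Real.exp s) x x' =
      y * E (2 * (z * x * x').re) 0 * (bkR 0 (4 * π * y * ‖x‖ * ‖x'‖) : ℝ) := by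
  rw [← integral_add_right_eq_self _ (Real.log (‖x'‖ / ‖x‖))]
  simp_rw [ker_exp_shift z y hx hx']
  rw [integral_const_mul, integral_complex_ofReal, bkR]

variable {ι : Type*} [Fintype ι]

theorem integrable_G_exp {P : ι → ℂ × ℝ} (hP : ∀ i, 0 < (P i).2) {x : ι → ℂ × ℂ}
    (hx : ∀ i, (x i).1 ≠ 0) (hx' : ∀ i, (x i).2 ≠ 0) :
    Integrable fun s : ι → ℝ => G P (fun i => Real.exp (s i)) x :=
  Integrable.fintype_prod (𝕜 := ℂ) (f := fun i (s : ℝ) =>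
    ker (P i).1 (P i).2 (Real.exp s) (x i).1 (x i).2)
    (fun i => integrable_ker_exp (hP i) _ (hx i) (hx' i))

/-- **(W4)** several places -/
theorem integral_G_exp (P : ι → ℂ × ℝ) {x : ι → ℂ × ℂ}
    (hx : ∀ i, (x i).1 ≠ 0) (hx' : ∀ i, (x i).2 ≠ 0) :
    ∫ s : ι → ℝ, G P (fun i => Real.exp (s i)) x =
      ∏ i, ((P i).2 * E (2 * ((P i).1 * (x i).1 * (x i).2).re) 0 *
        (bkR 0 (4 * π * (P i).2 * ‖(x i).1‖ * ‖(x i).2‖) : ℝ)) := by
  have h := integral_fintype_prod_volume_eq_prod (𝕜 := ℂ) (fun i (s : ℝ) =>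
    ker (P i).1 (P i).2 (Real.exp s) (x i).1 (x i).2)
  have h2 : ∀ s : ι → ℝ, G P (fun i => Real.exp (s i)) x =
      ∏ i, ker (P i).1 (P i).2 (Real.exp (s i)) (x i).1 (x i).2 := fun s => rfl
  simp_rw [h2]
  rw [h]
  exact Finset.prod_congr rfl fun i _ => integral_ker_exp _ _ (hx i) (hx' i)

/-- the absolute value -/
theorem integral_norm_G_exp {P : ι → ℂ × ℝ} (hP : ∀ i, 0 < (P i).2) {x : ι → ℂ × ℂ}
    (hx : ∀ i, (x i).1 ≠ 0) (hx' : ∀ i, (x i).2 ≠ 0) :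
    ∫ s : ι → ℝ, ‖G P (fun i => Real.exp (s i)) x‖ =
      ∏ i, ((P i).2 * bkR 0 (4 * π * (P i).2 * ‖(x i).1‖ * ‖(x i).2‖)) := by
  have h1 : ∀ s : ι → ℝ, ((‖G P (fun i => Real.exp (s i)) x‖ : ℝ) : ℂ) =
      G (fun i => (0, (P i).2)) (fun i => Real.exp (s i)) x := by
    intro s
    rw [norm_G hP, G, ofReal_prod]
    refine Finset.prod_congr rfl fun i _ => ?_
    rw [ker, E, ofReal_mul, ofReal_exp]
    congr 2
    simp
  have h2 := integral_G_exp (fun i => ((0 : ℂ), (P i).2)) hx hx'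
  simp_rw [← h1] at h2
  rw [integral_complex_ofReal] at h2
  apply ofReal_injective
  rw [h2, ofReal_prod]
  refine Finset.prod_congr rfl fun i _ => ?_
  simp [E_zero]

end Fermat.Agent.LT.WeilInf
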