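import Fermat.Agent.LT.WeilInf.Poisson
import Fermat.Agent.LT.PoissonNF

/-!
# Poisson summation for the theta kernel over a quadratic extension of number fields
-/

set_option autoImplicit false

noncomputable section

open MeasureTheory Complex Module NumberField
open scoped Real ComplexConjugate

namespace Fermat.Agent.LT.WeilInf

open Fermat.Agent.LT.Poisson

section Emb

variable {F M : Type*} [Field F] [NumberField F] [Field M] [NumberField M] [Algebra F M]

theorem finrank_eq_two_mul_card [IsTotallyComplex F] :
    finrank ℚ F = 2 * Fintype.card (InfinitePlace F) := by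
  have h := InfinitePlace.card_add_two_mul_card_eq_rank F
  have h2 : InfinitePlace.nrRealPlaces F = 0 := IsTotallyComplex.nrRealPlaces_eq_zero F
  rw [h2] at h
  have h3 : Fintype.card (InfinitePlace F) = InfinitePlace.nrComplexPlaces F := by
    rw [InfinitePlace.card_eq_nrRealPlaces_add_nrComplexPlaces, h2, zero_add]
  rw [h3]
  omega

/-- embeddings over the complex places of `F`, and their composites with `σ`, are representatives
of the embeddings of `M` modulo conjugation -/
theorem isPairCM [IsTotallyComplex F] (hM : finrank F M = 2) {σ : M ≃ₐ[F] M} (hσ : σ ≠ 1)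
    {φ : InfinitePlace F → M →+* ℂ} (hφ : ∀ w x, φ w (algebraMap F M x) = w.embedding x) :
    IsPairCM φ ((σ : M ≃+* M) : M →+* M) := by
  have hcx : ∀ w : InfinitePlace F, ∃ x : F, conj (w.embedding x) ≠ w.embedding x := by
    intro w
    by_contra hc
    push Not at hc
    have : ComplexEmbedding.IsReal w.embedding := by
      ext x
      exact hc x
    have h2 := InfinitePlace.isReal_iff.2 this
    exact (InfinitePlace.not_isReal_iff_isComplex.2 (IsTotallyComplex.isComplex w)) h2
  unfold IsPairCM IsCM
  rw [Fintype.bijective_iff_injective_and_card]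
  constructor
  · -- injectivity
    have key : ∀ w w' : InfinitePlace F, (∀ x, w.embedding x = w'.embedding x) → w = w' := by
      intro w w' h
      rw [← w.mk_embedding, ← w'.mk_embedding]
      congr 1
      ext x
      exact h x
    have key2 : ∀ w w' : InfinitePlace F, ¬ ∀ x, w.embedding x = conj (w'.embedding x) := by
      intro w w' h
      have hw : w = w' := by
        rw [← w.mk_embedding, ← w'.mk_embedding]
        rw [InfinitePlace.mk_eq_iff]
        right
        ext x
        simp [h x]
      subst hw
      obtain ⟨x, hx⟩ := hcx w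
      exact hx (h x).symm
    have hσ' : ∃ x, σ x ≠ x := by
      by_contra hc
      push Not at hc
      exact hσ (AlgEquiv.ext hc)
    have key3 : ∀ w : InfinitePlace F, ¬ ∀ x, φ w x = φ w (σ x) := by
      intro w h
      obtain ⟨x, hx⟩ := hσ'
      exact hx ((φ w).injective (h x)).symm
    have hr : ∀ w x, φ w (σ (algebraMap F M x)) = w.embedding x := by
      intro w x
      rw [σ.commutes, hφ]
    rintro ((w | w) | (w | w)) ((w' | w') | (w' | w')) he
    all_goals
      have h : ∀ x, _ = _ := fun x => DFunLike.congr_fun he x
      simp only [Sum.elim_inl, Sum.elim_inr, RingHom.coe_comp, Function.comp_apply,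
        RingHom.coe_coe, AlgEquiv.coe_ringEquiv] at h
    · have := key w w' fun x => by simpa [hφ] using h (algebraMap F M x)
      rw [this]
    · have := key w w' fun x => by simpa [hφ, hr] using h (algebraMap F M x)
      subst this
      exact absurd h (key3 w)
    · exact absurd (fun x => by simpa [hφ, hr] using h (algebraMap F M x)) (key2 w w')
    · exact absurd (fun x => by simpa [hφ, hr] using h (algebraMap F M x)) (key2 w w')
    · have := key w w' fun x => by simpa [hφ, hr] using h (algebraMap F M x)
      subst this
      exact absurd (fun x => (h x).symm) (key3 w)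
    · have := key w w' fun x => by simpa [hφ, hr] using h (algebraMap F M x)
      rw [this]
    · exact absurd (fun x => by simpa [hφ, hr] using h (algebraMap F M x)) (key2 w w')
    · exact absurd (fun x => by simpa [hφ, hr] using h (algebraMap F M x)) (key2 w w')
    · exact absurd (fun x => by simpa [hφ, hr] using (h (algebraMap F M x)).symm) (key2 w' w)
    · exact absurd (fun x => by simpa [hφ, hr] using (h (algebraMap F M x)).symm) (key2 w' w)
    · have := key w w' fun x => (starRingEnd ℂ).injective (by
        simpa [hφ, hr] using h (algebraMap F M x))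
      rw [this]
    · have := key w w' fun x => (starRingEnd ℂ).injective (by
        simpa [hφ, hr] using h (algebraMap F M x))
      subst this
      exact absurd (fun x => (starRingEnd ℂ).injective (h x)) (key3 w)
    · exact absurd (fun x => by simpa [hφ, hr] using (h (algebraMap F M x)).symm) (key2 w' w)
    · exact absurd (fun x => by simpa [hφ, hr] using (h (algebraMap F M x)).symm) (key2 w' w)
    · have := key w w' fun x => (starRingEnd ℂ).injective (by
        simpa [hφ, hr] using h (algebraMap F M x))
      subst this
      exact absurd (fun x => (starRingEnd ℂ).injective (h x).symm) (key3 w)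
    · have := key w w' fun x => (starRingEnd ℂ).injective (by
        simpa [hφ, hr] using h (algebraMap F M x))
      rw [this]
  · have h1 := finrank_eq_two_mul_card (F := F)
    have h2 := Module.finrank_mul_finrank ℚ F M
    rw [Embeddings.card M ℂ, ← h2, h1, hM]
    simp only [Fintype.card_sum]
    ring

end Emb

section NF

variable {κ : Type*} [Fintype κ] {M : Type*} [Field M] [NumberField M]

theorem swapB_eq : swapB κ = B := by
  ext v w
  rfl

theorem finrank_lt (n : ℕ) : (n : ℝ) < ((n + 1 : ℕ) : ℝ) := by push_cast; linarith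

variable {φ : κ → M →+* ℂ} {σ : M ≃+* M} (hσ : ∀ x, σ (σ x) = x)
    (h : IsPairCM φ (σ : M →+* M)) {ν : Type*} [Fintype ν] [DecidableEq ν] {b : Basis ν ℚ M}
    {Λ : Submodule ℤ M} (hΛ : Λ = Submodule.span ℤ (Set.range b))

include h hσ hΛ

theorem summable_G_nf {P : κ → ℂ × ℝ} (hP : ∀ i, 0 < (P i).2) {t : κ → ℝ} (ht : ∀ i, 0 < t i)
    (s : κ → ℂ × ℂ) : Summable fun x : Λ => G P t (s + jpair φ (σ : M →+* M) x) := by
  obtain ⟨C, -, hC⟩ := G_decay hP ht (finrank ℚ M + 1)
  exact (h.isRealModel hσ).summable_of_decay hΛ (finrank_lt _) hC s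

theorem summable_dual_G_nf {P : κ → ℂ × ℝ} (hP : ∀ i, 0 < (P i).2) {t : κ → ℝ}
    (ht : ∀ i, 0 < t i) (s : κ → ℂ × ℂ) :
    Summable fun x : (twForm (σ : M →+* M)).dualSubmodule Λ =>
      G P t (s + jpair φ (σ : M →+* M) x) := by
  obtain ⟨C, -, hC⟩ := G_decay hP ht (finrank ℚ M + 1)
  exact (h.isRealModel hσ).summable_dual_of_decay hΛ (finrank_lt _) hC s

/-- **(K3)** over a number field -/
theorem exists_hasSum_G_nf :
    ∃ C : ℝ, 0 < C ∧ ∀ {P : κ → ℂ × ℝ} (_ : ∀ i, 0 < (P i).2) {t : κ → ℝ} (_ : ∀ i, 0 < t i)
      (s : κ → ℂ × ℂ),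
      HasSum (fun y : (twForm (σ : M →+* M)).dualSubmodule Λ =>
        (C : ℂ) * (G (fun i => wpt (P i)) t (jpair φ (σ : M →+* M) y) *
          E (B (jpair φ (σ : M →+* M) y) s) 0))
        (∑' x : Λ, G P t (s + jpair φ (σ : M →+* M) x)) := by
  have hr : IsRealModel (twForm (σ : M →+* M)) (jpair φ (σ : M →+* M)) (B (ι := κ)) :=
    h.isRealModel hσ
  refine ⟨(4 ^ Fintype.card κ * (volume : Measure (κ → ℂ × ℂ)).real
    (parallelepiped (hr.realBasis b)))⁻¹, ?_, ?_⟩
  · have := parallelepiped_real_pos (volume : Measure (κ → ℂ × ℂ)) (hr.realBasis b)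
    positivity
  · intro P hP t ht s
    obtain ⟨C, -, hC⟩ := G_decay hP ht (finrank ℚ M + 1)
    have hs : Summable fun y : (twForm (σ : M →+* M)).dualSubmodule Λ =>
        fB volume B (G P t) (jpair φ (σ : M →+* M) y) := by
      simp_rw [fB_G hP ht]
      have := summable_dual_G_nf hσ h hΛ (fun i => wpt_pos (hP i)) ht 0
      simp only [zero_add] at this
      exact this.mul_left _
    have h1 := hr.hasSum_poisson volume hΛ (continuous_G P t) (finrank_lt _) hC hs s
    convert h1 using 1
    funext m
    rw [fB_G hP ht, cexp_eq_E, ofReal_inv, ofReal_mul, mul_inv, ofReal_pow, one_div,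
      inv_pow]
    push_cast
    ring

end NF

end Fermat.Agent.LT.WeilInf
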