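import Mathlib

/-!
# The archimedean theta kernel at one complex place

`ker z y t x x' = y * e (2 Re (z x x')) * exp (- 2 π y (t |x|² + |x'|² / t))`, a function of
`(x, x') ∈ ℂ × ℂ`, `(z, y) ∈ H³`, `t > 0`; its Fourier transform with respect to the pairing
`e (2 Re (x u' + x' u))` is the same function at `w (z, y) = (- conj z, y) / (|z|² + y²)`.
-/

set_option autoImplicit false

noncomputable section

open MeasureTheory Complex
open scoped Real ComplexConjugate

namespace Fermat.Agent.LT.WeilInf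

/-- `E r s = exp (2 π (i r - s))`, `r`, `s` real -/
def E (r s : ℝ) : ℂ := cexp (2 * π * (I * r - s))

theorem E_mul (r s r' s' : ℝ) : E r s * E r' s' = E (r + r') (s + s') := by
  rw [E, E, E, ← Complex.exp_add]
  congr 1
  push_cast
  ring

theorem E_zero : E 0 0 = 1 := by simp [E]

theorem norm_E (r s : ℝ) : ‖E r s‖ = Real.exp (-(2 * π * s)) := by
  rw [E, Complex.norm_exp]
  congr 1
  simp [mul_re, mul_im]

theorem E_ne_zero (r s : ℝ) : E r s ≠ 0 := Complex.exp_ne_zero _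

theorem E_int (n : ℤ) : E n 0 = 1 := by
  rw [E, Complex.exp_eq_one_iff]
  exact ⟨n, by push_cast; ring⟩

theorem E_add_int (r s : ℝ) (n : ℤ) : E (r + n) s = E r s := by
  rw [← add_zero s, ← E_mul, E_int, mul_one, add_zero]

theorem continuous_E {X : Type*} [TopologicalSpace X] {f g : X → ℝ} (hf : Continuous f)
    (hg : Continuous g) : Continuous fun x => E (f x) (g x) := by
  unfold E
  fun_prop

/-- two dimensional Gaussian -/
theorem gauss_ft {a : ℝ} (ha : 0 < a) (w : ℂ) :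
    ∫ x : ℂ, E (2 * (w * x).re) (a * ‖x‖ ^ 2) = (1 / (2 * a) : ℝ) * E 0 (‖w‖ ^ 2 / a) := by
  have hb : 0 < ((2 * π * a : ℝ) : ℂ).re := by
    rw [ofReal_re]; positivity
  have h := GaussianFourier.integral_cexp_neg_mul_sq_norm_add (V := ℂ) hb (4 * π * I) (conj w)
  rw [Complex.finrank_real_complex] at h
  have h2 : (fun x : ℂ => E (2 * (w * x).re) (a * ‖x‖ ^ 2)) =
      fun v : ℂ => cexp (-((2 * π * a : ℝ) : ℂ) * ‖v‖ ^ 2 + (4 * π * I) *
        ((inner ℝ (conj w) v : ℝ) : ℂ)) := by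
    funext x
    rw [E]
    congr 1
    rw [Complex.inner]
    simp only [conj_conj]
    rw [mul_comm x w]
    push_cast
    ring
  rw [h2, h, E]
  have ha' : (a : ℂ) ≠ 0 := by exact_mod_cast ha.ne'
  have hpi : (π : ℂ) ≠ 0 := by exact_mod_cast Real.pi_ne_zero
  congr 1
  · have : ((2 : ℕ) : ℂ) / 2 = 1 := by norm_num
    rw [this, cpow_one]
    push_cast
    field_simp
  · congr 1
    simp only [RCLike.norm_conj]
    push_cast
    field_simp
    ring_nf
    simp only [I_sq]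
    ring

theorem integrable_gauss {a : ℝ} (ha : 0 < a) (w : ℂ) :
    Integrable fun x : ℂ => E (2 * (w * x).re) (a * ‖x‖ ^ 2) := by
  have hb : 0 < ((2 * π * a : ℝ) : ℂ).re := by
    rw [ofReal_re]; positivity
  have h := GaussianFourier.integrable_cexp_neg_mul_sq_norm_add (V := ℂ) hb (4 * π * I) (conj w)
  refine h.congr (Filter.Eventually.of_forall fun x => ?_)
  show cexp _ = E _ _
  rw [E]
  congr 1
  rw [Complex.inner]
  simp only [conj_conj]
  rw [mul_comm x w]
  push_cast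
  ring

theorem norm_add_sq_complex (x s : ℂ) :
    ‖x + s‖ ^ 2 = ‖x‖ ^ 2 + 2 * (conj s * x).re + ‖s‖ ^ 2 := by
  rw [Complex.sq_norm, Complex.sq_norm, Complex.sq_norm, Complex.normSq_add]
  have : (x * conj s).re = (conj s * x).re := by rw [mul_comm]
  rw [this]
  ring

/-- a two dimensional Gaussian with a real and an imaginary linear term -/
theorem gauss_ft' {a : ℝ} (ha : 0 < a) (b w : ℂ) :
    ∫ x : ℂ, E (2 * (w * x).re) (a * ‖x‖ ^ 2 + 2 * (b * x).re) =
      (1 / (2 * a) : ℝ) * E (-(2 * (w * conj b).re / a)) ((‖w‖ ^ 2 - ‖b‖ ^ 2) / a) := by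
  have h := gauss_ft ha w
  rw [← integral_add_right_eq_self _ (conj b / a)] at h
  have h2 : ∀ x : ℂ, E (2 * (w * (x + conj b / a)).re) (a * ‖x + conj b / a‖ ^ 2) =
      E (2 * (w * conj b).re / a) (‖b‖ ^ 2 / a) *
      E (2 * (w * x).re) (a * ‖x‖ ^ 2 + 2 * (b * x).re) := by
    intro x
    rw [E_mul]
    have e1 : a * ‖x + conj b / a‖ ^ 2 = a * ‖x‖ ^ 2 + 2 * (b * x).re + ‖b‖ ^ 2 / a := by
      rw [norm_add_sq_complex]
      have e2 : (conj (conj b / (a : ℂ)) * x).re = (b * x).re / a := by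
        rw [map_div₀, conj_conj, conj_ofReal, div_mul_eq_mul_div, div_ofReal_re]
      have e3 : ‖conj b / (a : ℂ)‖ = ‖b‖ / a := by
        rw [norm_div, RCLike.norm_conj, norm_real, Real.norm_of_nonneg ha.le]
      rw [e2, e3]
      field_simp
    have e4 : (w * (x + conj b / a)).re = (w * x).re + (w * conj b).re / a := by
      rw [mul_add, add_re, mul_div_assoc', div_ofReal_re]
    rw [e1, e4]
    congr 1 <;> ring
  simp_rw [h2] at h
  rw [integral_const_mul] at h
  have hne := E_ne_zero (2 * (w * conj b).re / a) (‖b‖ ^ 2 / a)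
  rw [← mul_right_inj' hne, h, mul_left_comm, E_mul]
  congr 2 <;> ring

/-- the kernel -/
def ker (z : ℂ) (y t : ℝ) (x x' : ℂ) : ℂ :=
  y * E (2 * (z * x * x').re) (y * (t * ‖x‖ ^ 2 + ‖x'‖ ^ 2 / t))

theorem norm_ker {y : ℝ} (hy : 0 < y) (z : ℂ) (t : ℝ) (x x' : ℂ) :
    ‖ker z y t x x'‖ = y * Real.exp (-(2 * π * (y * (t * ‖x‖ ^ 2 + ‖x'‖ ^ 2 / t)))) := by
  rw [ker, norm_mul, norm_E, norm_real, Real.norm_of_nonneg hy.le]

/-- the character of the Fourier transform -/
def chr (x x' u u' : ℂ) : ℂ := E (2 * (x * u' + x' * u).re) 0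

theorem ker_mul_chr (z : ℂ) (y t : ℝ) (x x' u u' : ℂ) :
    ker z y t x x' * chr x x' u u' =
      y * E (2 * (u' * x).re) (y * t * ‖x‖ ^ 2) *
       E (2 * ((z * x + u) * x').re) (y / t * ‖x'‖ ^ 2) := by
  rw [ker, chr, mul_assoc (y : ℂ) (E _ _) (E _ _), E_mul, mul_assoc (y : ℂ) (E _ _) (E _ _),
    E_mul]
  have h1 : (x * u' + x' * u).re = (u' * x).re + (x' * u).re := by
    rw [add_re, mul_comm x u']
  have h2 : ((z * x + u) * x').re = (z * x * x').re + (x' * u).re := by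
    rw [add_mul, add_re, mul_comm u x']
  rw [h1, h2]
  congr 2 <;> ring

/-- the Fourier transform of `ker`, as an iterated integral -/
theorem ker_ft_iter {y t : ℝ} (hy : 0 < y) (ht : 0 < t) (z u u' : ℂ) :
    4 * ∫ x : ℂ, ∫ x' : ℂ, ker z y t x x' * chr x x' u u' =
      ker (-conj z / (‖z‖ ^ 2 + y ^ 2 : ℝ)) (y / (‖z‖ ^ 2 + y ^ 2)) t u u' := by
  have hD : 0 < ‖z‖ ^ 2 + y ^ 2 := by positivity
  set D := ‖z‖ ^ 2 + y ^ 2 with hDdef
  have h1 : ∀ x : ℂ, ∫ x' : ℂ, ker z y t x x' * chr x x' u u' =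
      ((t / 2 : ℝ) * E 0 (t / y * ‖u‖ ^ 2)) *
      E (2 * (u' * x).re) (t / y * D * ‖x‖ ^ 2 + 2 * ((t / y : ℝ) * conj u * z * x).re) := by
    intro x
    simp_rw [ker_mul_chr]
    rw [integral_const_mul, gauss_ft (by positivity : 0 < y / t), mul_mul_mul_comm, E_mul,
      mul_assoc (((t / 2 : ℝ) : ℂ)) (E _ _) (E _ _), E_mul, norm_add_sq_complex, ← ofReal_mul]
    have e1 : y * (1 / (2 * (y / t))) = t / 2 := by field_simp
    have e2 : (conj u * (z * x)).re = (conj u * z * x).re := by rw [mul_assoc]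
    have e3 : ((t / y : ℝ) * conj u * z * x).re = t / y * (conj u * z * x).re := by
      rw [mul_assoc, mul_assoc, re_ofReal_mul, mul_assoc]
    rw [e1, e2, e3, norm_mul, hDdef]
    congr 2
    · ring
    · field_simp
      ring
  simp_rw [h1]
  rw [integral_const_mul, gauss_ft' (by positivity : 0 < t / y * D), ker]
  have e1 : ‖((t / y : ℝ) : ℂ) * conj u * z‖ = t / y * ‖u‖ * ‖z‖ := by
    rw [norm_mul, norm_mul, RCLike.norm_conj, norm_real, Real.norm_of_nonneg (by positivity)]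
  have e2 : (u' * conj (((t / y : ℝ) : ℂ) * conj u * z)).re = t / y * (conj z * u * u').re := by
    rw [map_mul, map_mul, conj_conj, conj_ofReal]
    have : u' * ((t / y : ℝ) * u * conj z) = (t / y : ℝ) * (conj z * u * u') := by ring
    rw [this, re_ofReal_mul]
  have e3 : (-conj z / (D : ℂ) * u * u').re = - ((conj z * u * u').re / D) := by
    have : -conj z / (D : ℂ) * u * u' = - (conj z * u * u' / D) := by ring
    rw [this, neg_re, div_ofReal_re]
  rw [e1, e2, e3]
  have e4 : (4 : ℂ) * (((t / 2 : ℝ) : ℂ) * E 0 (t / y * ‖u‖ ^ 2) *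
      (((1 / (2 * (t / y * D)) : ℝ) : ℂ) * E (-(2 * (t / y * (conj z * u * u').re) / (t / y * D)))
        ((‖u'‖ ^ 2 - (t / y * ‖u‖ * ‖z‖) ^ 2) / (t / y * D)))) =
      ((4 * (t / 2) * (1 / (2 * (t / y * D))) : ℝ) : ℂ) * (E 0 (t / y * ‖u‖ ^ 2) *
        E (-(2 * (t / y * (conj z * u * u').re) / (t / y * D)))
        ((‖u'‖ ^ 2 - (t / y * ‖u‖ * ‖z‖) ^ 2) / (t / y * D))) := by
    push_cast
    ring
  rw [e4, E_mul]
  congr 2
  · field_simp
    ring
  · field_simp
    ring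
  · rw [hDdef]
    field_simp
    ring

end Fermat.Agent.LT.WeilInf
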