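import Fermat.Agent.LT.WeilInf.Prod
import Fermat.Agent.LT.ThetaInv

/-!
# Poisson summation for the archimedean theta kernel
-/

set_option autoImplicit false

noncomputable section

open MeasureTheory Complex Module
open scoped Real ComplexConjugate

namespace Fermat.Agent.LT.WeilInf

open Fermat.Agent.LT.Poisson

variable {ι : Type*} [Fintype ι]

instance isAddHaar_prod : (volume : Measure (ℂ × ℂ)).IsAddHaarMeasure :=
  inferInstanceAs (Measure.IsAddHaarMeasure ((volume : Measure ℂ).prod (volume : Measure ℂ)))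

instance isAddHaar_V : (volume : Measure (ι → ℂ × ℂ)).IsAddHaarMeasure :=
  MeasureTheory.Measure.pi.isAddHaarMeasure (fun _ : ι => (volume : Measure (ℂ × ℂ)))

theorem cexp_eq_E (r : ℝ) : cexp (2 * π * I * (r : ℝ)) = E r 0 := by
  rw [E]
  congr 1
  push_cast
  ring

theorem fB_G {P : ι → ℂ × ℝ} (hP : ∀ i, 0 < (P i).2) {t : ι → ℝ} (ht : ∀ i, 0 < t i)
    (w : ι → ℂ × ℂ) :
    fB volume B (G P t) w = (1 / 4) ^ Fintype.card ι * G (fun i => wpt (P i)) t w :=
  G_ft' hP ht w

section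

variable (L : Submodule ℤ (ι → ℂ × ℂ)) [DiscreteTopology L] [IsZLattice ℝ L]

theorem summable_G {P : ι → ℂ × ℝ} (hP : ∀ i, 0 < (P i).2) {t : ι → ℝ} (ht : ∀ i, 0 < t i)
    (s : ι → ℂ × ℂ) : Summable fun l : L => G P t (s + l) := by
  obtain ⟨C, -, hC⟩ := G_decay hP ht (finrank ℝ (ι → ℂ × ℂ) + 1)
  exact summable_lattice_of_decay L (by push_cast; linarith) hC s

theorem summable_dual_G {P : ι → ℂ × ℝ} (hP : ∀ i, 0 < (P i).2) {t : ι → ℝ} (ht : ∀ i, 0 < t i)
    (s : ι → ℂ × ℂ) : Summable fun l : (B (ι := ι)).dualSubmodule L => G P t (s + l) := by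
  obtain ⟨C, -, hC⟩ := G_decay hP ht (finrank ℝ (ι → ℂ × ℂ) + 1)
  exact summable_dual_of_decay B_nondegenerate L (by push_cast; linarith) hC s

/-- **(K3)** Poisson summation for `G`, with a shift -/
theorem hasSum_G {P : ι → ℂ × ℝ} (hP : ∀ i, 0 < (P i).2) {t : ι → ℝ} (ht : ∀ i, 0 < t i)
    (s : ι → ℂ × ℂ) :
    HasSum (fun m : (B (ι := ι)).dualSubmodule L =>
      ((4 ^ Fintype.card ι * ZLattice.covolume L : ℝ) : ℂ)⁻¹ *
        (G (fun i => wpt (P i)) t m * E (B m s) 0)) (∑' l : L, G P t (s + l)) := by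
  obtain ⟨C, -, hC⟩ := G_decay hP ht (finrank ℝ (ι → ℂ × ℂ) + 1)
  have hs : Summable fun m : (B (ι := ι)).dualSubmodule L => fB volume B (G P t) m := by
    simp_rw [fB_G hP ht]
    have := summable_dual_G L (fun i => wpt_pos (hP i)) ht 0
    simp only [zero_add] at this
    exact this.mul_left _
  have h := hasSum_poisson_lattice_of_decay volume B_nondegenerate L (continuous_G P t)
    (by push_cast; linarith) hC hs s
  convert h using 1
  funext m
  rw [fB_G hP ht, cexp_eq_E, ofReal_mul, mul_inv, ofReal_pow, one_div, inv_pow]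
  push_cast
  ring

end

end Fermat.Agent.LT.WeilInf
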