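import Fermat.Agent.LT.WeilInf.Gauss

/-!
# The archimedean theta kernel on `∏ (ℂ × ℂ)`

`G P t x = ∏ i, ker (P i) (t i) (x i)`, the pairing `B x u = ∑ i, 2 Re (x_i u'_i + x'_i u_i)`,
Fourier transform, translations, dilations, decay.
-/

set_option autoImplicit false

noncomputable section

open MeasureTheory Complex
open scoped Real ComplexConjugate

namespace Fermat.Agent.LT.WeilInf

/-! ### one place -/

/-- the point `w P`, `w = (0, -1; 1, 0)` -/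
def wpt (P : ℂ × ℝ) : ℂ × ℝ :=
  (-conj P.1 / (‖P.1‖ ^ 2 + P.2 ^ 2 : ℝ), P.2 / (‖P.1‖ ^ 2 + P.2 ^ 2))

theorem wpt_pos {P : ℂ × ℝ} (h : 0 < P.2) : 0 < (wpt P).2 := by
  rw [wpt]; positivity

theorem wpt_wpt {P : ℂ × ℝ} (h : 0 < P.2) : wpt (wpt P) = P := by
  have hD : 0 < ‖P.1‖ ^ 2 + P.2 ^ 2 := by positivity
  have h1 : ‖(wpt P).1‖ ^ 2 + (wpt P).2 ^ 2 = (‖P.1‖ ^ 2 + P.2 ^ 2)⁻¹ := by
    simp only [wpt, norm_div, norm_neg, RCLike.norm_conj, norm_real, Real.norm_of_nonneg hD.le]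
    field_simp
  rw [wpt, h1]
  simp only [wpt]
  ext1
  · simp only [map_div₀, map_neg, conj_conj, conj_ofReal]
    have : ((‖P.1‖ ^ 2 + P.2 ^ 2 : ℝ) : ℂ) ≠ 0 := by exact_mod_cast hD.ne'
    rw [ofReal_inv]
    field_simp
  · simp only
    field_simp

/-- translation of the point -/
theorem ker_add (z b : ℂ) (y t : ℝ) (x x' : ℂ) :
    ker (z + b) y t x x' = E (2 * (b * x * x').re) 0 * ker z y t x x' := by
  rw [ker, ker, mul_left_comm, E_mul]
  have : ((z + b) * x * x').re = (z * x * x').re + (b * x * x').re := by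
    rw [add_mul, add_mul, add_re]
  rw [this]
  congr 2 <;> ring

/-- dilation of the point -/
theorem ker_dil {μ ν : ℂ} (hμ : μ ≠ 0) (hν : ν ≠ 0) (z : ℂ) (y : ℝ) {t : ℝ} (ht : 0 < t)
    (x x' : ℂ) :
    ker (μ * ν * z) (‖μ * ν‖ * y) t x x' =
      ‖μ * ν‖ * ker z y (t * ‖ν‖ / ‖μ‖) (μ * x) (ν * x') := by
  have hμ' : 0 < ‖μ‖ := norm_pos_iff.2 hμ
  have hν' : 0 < ‖ν‖ := norm_pos_iff.2 hν
  rw [ker, ker, ← mul_assoc, ← ofReal_mul]
  congr 2
  · congr 2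
    ring
  · simp only [norm_mul]
    field_simp

theorem ker_neg (z : ℂ) (y t : ℝ) (x x' : ℂ) : ker z y t (-x) (-x') = ker z y t x x' := by
  rw [ker, ker]
  simp

theorem continuous_ker (z : ℂ) (y t : ℝ) : Continuous fun p : ℂ × ℂ => ker z y t p.1 p.2 := by
  unfold ker
  refine continuous_const.mul (continuous_E ?_ ?_)
  · exact continuous_const.mul (continuous_re.comp (by fun_prop))
  · fun_prop

theorem continuous_chr (u u' : ℂ) : Continuous fun p : ℂ × ℂ => chr p.1 p.2 u u' := by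
  unfold chr
  refine continuous_E ?_ continuous_const
  exact continuous_const.mul (continuous_re.comp (by fun_prop))

theorem norm_chr (x x' u u' : ℂ) : ‖chr x x' u u'‖ = 1 := by
  rw [chr, norm_E]; simp

theorem integrable_real_gauss {a : ℝ} (ha : 0 < a) :
    Integrable fun x : ℂ => Real.exp (-(2 * π * (a * ‖x‖ ^ 2))) := by
  have h := (integrable_gauss ha 0).norm
  refine h.congr (Filter.Eventually.of_forall fun x => ?_)
  show ‖E _ _‖ = _
  rw [norm_E]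

theorem integrable_ker {y t : ℝ} (hy : 0 < y) (ht : 0 < t) (z : ℂ) :
    Integrable fun p : ℂ × ℂ => ker z y t p.1 p.2 := by
  have h1 : Integrable fun p : ℂ × ℂ => (Real.exp (-(2 * π * (y * t * ‖p.1‖ ^ 2)))) *
      Real.exp (-(2 * π * (y / t * ‖p.2‖ ^ 2))) :=
    (integrable_real_gauss (by positivity : 0 < y * t)).mul_prod
      (integrable_real_gauss (by positivity : 0 < y / t))
  refine (h1.const_mul y).mono' (continuous_ker z y t).aestronglyMeasurable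
    (Filter.Eventually.of_forall fun p => ?_)
  rw [norm_ker hy, ← Real.exp_add]
  apply le_of_eq
  congr 2
  ring

theorem integrable_ker_chr {y t : ℝ} (hy : 0 < y) (ht : 0 < t) (z u u' : ℂ) :
    Integrable fun p : ℂ × ℂ => ker z y t p.1 p.2 * chr p.1 p.2 u u' := by
  refine (integrable_ker hy ht z).norm.mono'
    ((continuous_ker z y t).mul (continuous_chr u u')).aestronglyMeasurable
    (Filter.Eventually.of_forall fun p => ?_)
  rw [norm_mul, norm_chr, mul_one]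

/-- the Fourier transform of `ker` -/
theorem ker_ft {y t : ℝ} (hy : 0 < y) (ht : 0 < t) (z u u' : ℂ) :
    ∫ p : ℂ × ℂ, ker z y t p.1 p.2 * chr p.1 p.2 u u' =
      (1 / 4) * ker (wpt (z, y)).1 (wpt (z, y)).2 t u u' := by
  have h := integral_prod _ (integrable_ker_chr hy ht z u u')
  rw [← Measure.volume_eq_prod] at h
  rw [h]
  have h2 := ker_ft_iter hy ht z u u'
  simp only [wpt]
  rw [← h2]
  ring

/-! ### several places -/

variable {ι : Type*} [Fintype ι]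

/-- the kernel on `∏ (ℂ × ℂ)` -/
def G (P : ι → ℂ × ℝ) (t : ι → ℝ) (x : ι → ℂ × ℂ) : ℂ :=
  ∏ i, ker (P i).1 (P i).2 (t i) (x i).1 (x i).2

/-- the pairing -/
def B : LinearMap.BilinForm ℝ (ι → ℂ × ℂ) :=
  LinearMap.mk₂ ℝ (fun x u => ∑ i, 2 * ((x i).1 * (u i).2 + (x i).2 * (u i).1).re)
    (fun x x' u => by
      rw [← Finset.sum_add_distrib]
      refine Finset.sum_congr rfl fun i _ => ?_
      simp only [Pi.add_apply, Prod.fst_add, Prod.snd_add, add_mul, add_re]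
      ring)
    (fun c x u => by
      rw [smul_eq_mul, Finset.mul_sum]
      refine Finset.sum_congr rfl fun i _ => ?_
      simp only [Pi.smul_apply, Prod.smul_fst, Prod.smul_snd, real_smul, mul_assoc, add_re,
        re_ofReal_mul]
      ring)
    (fun x u u' => by
      rw [← Finset.sum_add_distrib]
      refine Finset.sum_congr rfl fun i _ => ?_
      simp only [Pi.add_apply, Prod.fst_add, Prod.snd_add, mul_add, add_re]
      ring)
    (fun c x u => by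
      rw [smul_eq_mul, Finset.mul_sum]
      refine Finset.sum_congr rfl fun i _ => ?_
      simp only [Pi.smul_apply, Prod.smul_fst, Prod.smul_snd, real_smul,
        mul_left_comm _ (c : ℂ), add_re, re_ofReal_mul]
      ring)

theorem B_apply (x u : ι → ℂ × ℂ) :
    B x u = ∑ i, 2 * ((x i).1 * (u i).2 + (x i).2 * (u i).1).re := rfl

theorem B_comm (x u : ι → ℂ × ℂ) : B x u = B u x := by
  rw [B_apply, B_apply]
  refine Finset.sum_congr rfl fun i _ => ?_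
  rw [mul_comm (x i).1, mul_comm (x i).2, add_comm]

theorem eq_zero_of_B {x : ι → ℂ × ℂ} (h : ∀ u, B x u = 0) : x = 0 := by
  have h1 := h fun i => (conj (x i).2, conj (x i).1)
  rw [B_apply] at h1
  have h2 : ∀ i, 2 * ((x i).1 * conj (x i).1 + (x i).2 * conj (x i).2).re =
      2 * (‖(x i).1‖ ^ 2 + ‖(x i).2‖ ^ 2) := by
    intro i
    rw [mul_conj, mul_conj, ← ofReal_add, ofReal_re, normSq_eq_norm_sq, normSq_eq_norm_sq]
  simp only [h2] at h1
  rw [Finset.sum_eq_zero_iff_of_nonneg fun i _ => by positivity] at h1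
  ext1 i
  have h3 := h1 i (Finset.mem_univ i)
  have h4 : ‖(x i).1‖ ^ 2 = 0 := by nlinarith [sq_nonneg ‖(x i).1‖, sq_nonneg ‖(x i).2‖]
  have h5 : ‖(x i).2‖ ^ 2 = 0 := by nlinarith [sq_nonneg ‖(x i).1‖, sq_nonneg ‖(x i).2‖]
  ext1
  · simpa using h4
  · simpa using h5

theorem B_nondegenerate : (B (ι := ι)).Nondegenerate :=
  ⟨fun _ h => eq_zero_of_B h, fun x h => eq_zero_of_B fun u => by rw [B_comm]; exact h u⟩

omit [Fintype ι] in
theorem E_sum (s : Finset ι) (r : ι → ℝ) : E (∑ i ∈ s, r i) 0 = ∏ i ∈ s, E (r i) 0 := by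
  classical
  induction s using Finset.induction_on with
  | empty => simp [E_zero]
  | insert i s hi ih =>
    rw [Finset.sum_insert hi, Finset.prod_insert hi, ← ih, E_mul, add_zero]

theorem E_B (x u : ι → ℂ × ℂ) : E (B x u) 0 = ∏ i, chr (x i).1 (x i).2 (u i).1 (u i).2 := by
  rw [B_apply, E_sum]
  rfl

theorem continuous_G (P : ι → ℂ × ℝ) (t : ι → ℝ) : Continuous (G P t) := by
  unfold G
  exact continuous_finsetProd _ fun i _ =>
    (continuous_ker (P i).1 (P i).2 (t i)).comp (continuous_apply i)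

theorem G_neg (P : ι → ℂ × ℝ) (t : ι → ℝ) (x : ι → ℂ × ℂ) : G P t (-x) = G P t x := by
  unfold G
  exact Finset.prod_congr rfl fun i _ => ker_neg _ _ _ _ _

theorem norm_G {P : ι → ℂ × ℝ} (hP : ∀ i, 0 < (P i).2) (t : ι → ℝ) (x : ι → ℂ × ℂ) :
    ‖G P t x‖ = ∏ i, ((P i).2 *
      Real.exp (-(2 * π * ((P i).2 * (t i * ‖(x i).1‖ ^ 2 + ‖(x i).2‖ ^ 2 / t i))))) := by
  rw [G, norm_prod]
  exact Finset.prod_congr rfl fun i _ => norm_ker (hP i) _ _ _ _

theorem integrable_G {P : ι → ℂ × ℝ} (hP : ∀ i, 0 < (P i).2) {t : ι → ℝ} (ht : ∀ i, 0 < t i) :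
    Integrable (G P t) := by
  have := Integrable.fintype_prod (𝕜 := ℂ) (f := fun i (p : ℂ × ℂ) =>
    ker (P i).1 (P i).2 (t i) p.1 p.2) (fun i => integrable_ker (hP i) (ht i) _)
  exact this

/-- **the Fourier transform of `G`** -/
theorem G_ft {P : ι → ℂ × ℝ} (hP : ∀ i, 0 < (P i).2) {t : ι → ℝ} (ht : ∀ i, 0 < t i)
    (u : ι → ℂ × ℂ) :
    ∫ x, G P t x * E (B x u) 0 = (1 / 4) ^ Fintype.card ι * G (fun i => wpt (P i)) t u := by
  have h := integral_fintype_prod_volume_eq_prod (𝕜 := ℂ) (fun i (p : ℂ × ℂ) =>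
    ker (P i).1 (P i).2 (t i) p.1 p.2 * chr p.1 p.2 (u i).1 (u i).2)
  have h1 : ∀ x : ι → ℂ × ℂ, G P t x * E (B x u) 0 = ∏ i, (ker (P i).1 (P i).2 (t i) (x i).1 (x i).2
      * chr (x i).1 (x i).2 (u i).1 (u i).2) := by
    intro x
    rw [E_B, G, ← Finset.prod_mul_distrib]
  simp_rw [h1]
  rw [h]
  have h2 : ∀ i, (∫ p : ℂ × ℂ, ker (P i).1 (P i).2 (t i) p.1 p.2 * chr p.1 p.2 (u i).1 (u i).2) =
      (1 / 4) * ker (wpt (P i)).1 (wpt (P i)).2 (t i) (u i).1 (u i).2 := fun i =>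
    ker_ft (hP i) (ht i) _ _ _
  simp_rw [h2]
  rw [Finset.prod_mul_distrib, Finset.prod_const, Finset.card_univ, G]

/-- the same with `exp (- 2 π i B w v)` -/
theorem G_ft' {P : ι → ℂ × ℝ} (hP : ∀ i, 0 < (P i).2) {t : ι → ℝ} (ht : ∀ i, 0 < t i)
    (w : ι → ℂ × ℂ) :
    ∫ v, cexp (-(2 * π * I * (B w v : ℝ))) * G P t v =
      (1 / 4) ^ Fintype.card ι * G (fun i => wpt (P i)) t w := by
  rw [← G_neg, ← G_ft hP ht]
  refine integral_congr_ae (Filter.Eventually.of_forall fun v => ?_)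
  show _ * _ = _ * _
  rw [mul_comm, B_comm v, map_neg, LinearMap.neg_apply, E]
  congr 2
  push_cast
  ring

/-! ### decay -/

theorem norm_G_le {P : ι → ℂ × ℝ} (hP : ∀ i, 0 < (P i).2) {t : ι → ℝ} {c : ℝ} (hc : 0 ≤ c)
    (h1 : ∀ i, c ≤ (P i).2 * t i) (h2 : ∀ i, c ≤ (P i).2 / t i) (x : ι → ℂ × ℂ) :
    ‖G P t x‖ ≤ (∏ i, (P i).2) * Real.exp (-(2 * π * (c * ‖x‖ ^ 2))) := by
  rw [norm_G hP, Finset.prod_mul_distrib, ← Real.exp_sum, Finset.sum_neg_distrib,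
    ← Finset.mul_sum]
  have h0 : 0 ≤ ∏ i, (P i).2 := Finset.prod_nonneg fun i _ => (hP i).le
  refine mul_le_mul_of_nonneg_left (Real.exp_le_exp.2 (neg_le_neg
    (mul_le_mul_of_nonneg_left ?_ (by positivity)))) h0
  have hterm : ∀ i, c * ‖x i‖ ^ 2 ≤
      (P i).2 * (t i * ‖(x i).1‖ ^ 2 + ‖(x i).2‖ ^ 2 / t i) := by
    intro i
    have e : (P i).2 * (t i * ‖(x i).1‖ ^ 2 + ‖(x i).2‖ ^ 2 / t i) =
      (P i).2 * t i * ‖(x i).1‖ ^ 2 + (P i).2 / t i * ‖(x i).2‖ ^ 2 := by ring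
    rw [e, Prod.norm_def]
    have a1 := mul_le_mul_of_nonneg_right (h1 i) (sq_nonneg ‖(x i).1‖)
    have a2 := mul_le_mul_of_nonneg_right (h2 i) (sq_nonneg ‖(x i).2‖)
    have b1 := mul_nonneg hc (sq_nonneg ‖(x i).1‖)
    have b2 := mul_nonneg hc (sq_nonneg ‖(x i).2‖)
    rcases max_cases ‖(x i).1‖ ‖(x i).2‖ with ⟨h, _⟩ | ⟨h, _⟩ <;> rw [h] <;> linarith
  rcases isEmpty_or_nonempty ι with hι | hι
  · have : x = 0 := Subsingleton.elim _ _
    simp [this]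
  · obtain ⟨i, hi⟩ := Finite.exists_max fun i => ‖x i‖
    have hx : ‖x‖ = ‖x i‖ :=
      le_antisymm ((pi_norm_le_iff_of_nonneg (norm_nonneg _)).2 hi) (norm_le_pi_norm x i)
    rw [hx]
    refine (hterm i).trans (Finset.single_le_sum
      (f := fun i => (P i).2 * (t i * ‖(x i).1‖ ^ 2 + ‖(x i).2‖ ^ 2 / t i))
      (fun j _ => ?_) (Finset.mem_univ i))
    exact (mul_nonneg hc (sq_nonneg _)).trans (hterm j)

theorem exp_neg_sq_le {a : ℝ} (ha : 0 < a) (k : ℕ) {r : ℝ} (hr : 0 ≤ r) :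
    Real.exp (-(a * r ^ 2)) ≤
      (k.factorial * Real.exp (1 + 1 / (4 * a))) * (1 + r) ^ (-(k : ℝ)) := by
  have hp : 0 < 1 + r := by positivity
  rw [Real.rpow_neg hp.le, Real.rpow_natCast, ← div_eq_mul_inv, le_div_iff₀ (by positivity)]
  have h1 := Real.pow_div_factorial_le_exp (1 + r) hp.le k
  rw [div_le_iff₀ (by positivity)] at h1
  have h2 : -(a * r ^ 2) + (1 + r) ≤ 1 + 1 / (4 * a) := by
    have : 0 ≤ (2 * a * r - 1) ^ 2 / (4 * a) := by positivity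
    have e : (2 * a * r - 1) ^ 2 / (4 * a) = a * r ^ 2 - r + 1 / (4 * a) := by
      field_simp
      ring
    rw [e] at this
    linarith
  calc Real.exp (-(a * r ^ 2)) * (1 + r) ^ k
      ≤ Real.exp (-(a * r ^ 2)) * (Real.exp (1 + r) * k.factorial) := by gcongr
    _ = k.factorial * Real.exp (-(a * r ^ 2) + (1 + r)) := by
        rw [Real.exp_add (-(a * r ^ 2)) (1 + r)]; ring
    _ ≤ _ := by gcongr

/-- decay of `G P t`, with a constant which only depends on a lower bound `c` of all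
`y_i t_i`, `y_i / t_i` and an upper bound `A` of `∏ y_i` -/
theorem exists_G_decay (c A : ℝ) (hc : 0 < c) (k : ℕ) :
    ∃ C : ℝ, 0 ≤ C ∧ ∀ (P : ι → ℂ × ℝ) (t : ι → ℝ), (∀ i, 0 < (P i).2) → (∏ i, (P i).2 ≤ A) →
      (∀ i, c ≤ (P i).2 * t i) → (∀ i, c ≤ (P i).2 / t i) →
      ∀ x, ‖G P t x‖ ≤ C * (1 + ‖x‖) ^ (-(k : ℝ)) := by
  refine ⟨|A| * (k.factorial * Real.exp (1 + 1 / (4 * (2 * π * c)))), by positivity,
    fun P t hP hA h1 h2 x => ?_⟩
  refine (norm_G_le hP hc.le h1 h2 x).trans ?_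
  rw [mul_assoc |A|]
  have h3 := exp_neg_sq_le (by positivity : 0 < 2 * π * c) k (norm_nonneg x)
  have e : 2 * π * (c * ‖x‖ ^ 2) = 2 * π * c * ‖x‖ ^ 2 := by ring
  rw [e]
  exact mul_le_mul (hA.trans (le_abs_self A)) h3 (Real.exp_pos _).le (abs_nonneg A)

theorem exists_bound {P : ι → ℂ × ℝ} (hP : ∀ i, 0 < (P i).2) {t : ι → ℝ} (ht : ∀ i, 0 < t i) :
    ∃ c : ℝ, 0 < c ∧ (∀ i, c ≤ (P i).2 * t i) ∧ ∀ i, c ≤ (P i).2 / t i := by
  rcases isEmpty_or_nonempty ι with hι | hι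
  · exact ⟨1, one_pos, fun i => isEmptyElim i, fun i => isEmptyElim i⟩
  · obtain ⟨i, hi⟩ := Finite.exists_min fun i => min ((P i).2 * t i) ((P i).2 / t i)
    exact ⟨_, lt_min (mul_pos (hP i) (ht i)) (div_pos (hP i) (ht i)),
      fun j => (hi j).trans (min_le_left _ _), fun j => (hi j).trans (min_le_right _ _)⟩

theorem G_decay {P : ι → ℂ × ℝ} (hP : ∀ i, 0 < (P i).2) {t : ι → ℝ} (ht : ∀ i, 0 < t i) (k : ℕ) :
    ∃ C : ℝ, 0 ≤ C ∧ ∀ x, ‖G P t x‖ ≤ C * (1 + ‖x‖) ^ (-(k : ℝ)) := by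
  obtain ⟨c, hc, h1, h2⟩ := exists_bound hP ht
  obtain ⟨C, hC, h⟩ := exists_G_decay (ι := ι) c _ hc k
  exact ⟨C, hC, h P t hP le_rfl h1 h2⟩

/-! ### translations and dilations -/

/-- translation of the point by `b` -/
theorem G_add (b : ι → ℂ) (P : ι → ℂ × ℝ) (t : ι → ℝ) (x : ι → ℂ × ℂ) :
    G (fun i => ((P i).1 + b i, (P i).2)) t x =
      E (∑ i, 2 * (b i * (x i).1 * (x i).2).re) 0 * G P t x := by
  rw [G, G, E_sum, ← Finset.prod_mul_distrib]
  exact Finset.prod_congr rfl fun i _ => ker_add _ _ _ _ _ _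

/-- dilation of the point by `μ ν` -/
theorem G_dil {μ ν : ι → ℂ} (hμ : ∀ i, μ i ≠ 0) (hν : ∀ i, ν i ≠ 0) (P : ι → ℂ × ℝ) {t : ι → ℝ}
    (ht : ∀ i, 0 < t i) (x : ι → ℂ × ℂ) :
    G (fun i => (μ i * ν i * (P i).1, ‖μ i * ν i‖ * (P i).2)) t x =
      (∏ i, ‖μ i * ν i‖ : ℝ) * G P (fun i => t i * ‖ν i‖ / ‖μ i‖)
        (fun i => (μ i * (x i).1, ν i * (x i).2)) := by
  rw [G, G, ofReal_prod, ← Finset.prod_mul_distrib]
  exact Finset.prod_congr rfl fun i _ => ker_dil (hμ i) (hν i) _ _ (ht i) _ _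

/-- the special case `diag (d⁻¹, d)` -/
theorem G_diag {d : ι → ℂ} (hd : ∀ i, d i ≠ 0) (P : ι → ℂ × ℝ) {t : ι → ℝ}
    (ht : ∀ i, 0 < t i) (x : ι → ℂ × ℂ) :
    G (fun i => ((P i).1 / d i ^ 2, (P i).2 / ‖d i‖ ^ 2)) t x =
      (∏ i, (‖d i‖ ^ 2)⁻¹ : ℝ) * G P t (fun i => ((x i).1 / d i, (x i).2 / d i)) := by
  have h := G_dil (μ := fun i => (d i)⁻¹) (ν := fun i => (d i)⁻¹) (fun i => inv_ne_zero (hd i))
    (fun i => inv_ne_zero (hd i)) P ht x
  have e1 : (fun i => ((P i).1 / d i ^ 2, (P i).2 / ‖d i‖ ^ 2)) =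
      fun i => ((d i)⁻¹ * (d i)⁻¹ * (P i).1, ‖(d i)⁻¹ * (d i)⁻¹‖ * (P i).2) := by
    funext i
    rw [norm_mul, norm_inv]
    congr 1
    · ring
    · ring
  have e2 : (fun i => t i * ‖(d i)⁻¹‖ / ‖(d i)⁻¹‖) = t := by
    funext i
    rw [mul_div_assoc, div_self (norm_ne_zero_iff.2 (inv_ne_zero (hd i))), mul_one]
  rw [e1, h, e2]
  congr 1
  · congr 1
    exact Finset.prod_congr rfl fun i _ => by rw [norm_mul, norm_inv]; ring
  · congr 1
    funext i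
    simp only [div_eq_inv_mul]

end Fermat.Agent.LT.WeilInf
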